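import Mathlib

/-!
# Transfer of a restricted homomorphism (helper105, row S41, block HK, leaf TR)

`transfer (φ|_H) = φ ^ [G : H]` for `φ : G →* A`, `A` commutative, `H ≤ G` of finite index.
-/

set_option autoImplicit false

namespace Fermat.Agent.S41.H105

open Subgroup Subgroup.leftTransversals MulAction

open scoped Pointwise

/-- The transfer of the restriction to `H` of a homomorphism `φ : G →* A` is `φ ^ [G : H]`. -/
theorem transfer_comp_subtype {G : Type*} [Group G] {A : Type*} [CommGroup A] (H : Subgroup G)
    [H.FiniteIndex] (φ : G →* A) (g : G) :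
    MonoidHom.transfer (φ.comp H.subtype) g = φ g ^ H.index := by
  classical
  letI := H.fintypeQuotientOfFiniteIndex
  rw [MonoidHom.transfer_def (φ.comp H.subtype) default g]
  unfold Subgroup.leftTransversals.diff
  simp only [MonoidHom.comp_apply, Subgroup.subtype_apply, map_mul, map_inv,
    Subgroup.smul_apply_eq_smul_apply_inv_smul, smul_eq_mul]
  rw [Finset.prod_mul_distrib, Finset.prod_inv_distrib, Finset.prod_mul_distrib,
    Finset.prod_const]
  have hperm : ∏ q : G ⧸ H, φ ((default : H.LeftTransversal).2.leftQuotientEquiv (g⁻¹ • q) : G)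
      = ∏ q : G ⧸ H, φ ((default : H.LeftTransversal).2.leftQuotientEquiv q : G) :=
    Fintype.prod_equiv (MulAction.toPerm g⁻¹) _ _ fun _ => rfl
  rw [hperm, Finset.card_univ, ← Nat.card_eq_fintype_card, ← Subgroup.index_eq_card]
  rw [mul_comm (φ g ^ H.index), ← mul_assoc, inv_mul_cancel, one_mul]

end Fermat.Agent.S41.H105
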