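import Fermat.Agent.S41.Spec.HK
import Fermat.Agent.S41.H105.TransferGeneral

/-!
# `transferAlong f (φ ∘ f) = [G : f(H)] • φ` (helper105, row S41, block HK, leaf TR)
-/

set_option autoImplicit false

namespace Fermat.Agent.S41.H105

open Fermat.Agent.S41.Spec

/-- The transfer along an injective `f : H →* G` with range of finite index of `φ ∘ f` is
`[G : f(H)] • φ`. -/
theorem transferAlong_comp {H G : Type*} [Group H] [Group G] {A : Type*} [AddCommGroup A]
    (f : H →* G) (hf : Function.Injective f) (hfi : f.range.FiniteIndex)
    (φ : Additive G →+ A) :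
    transferAlong f (φ.comp (MonoidHom.toAdditive f)) = f.range.index • φ := by
  classical
  have h : Function.Injective f ∧ f.range.FiniteIndex := ⟨hf, hfi⟩
  unfold transferAlong
  rw [dif_pos h]
  have hcomp : (AddMonoidHom.toMultiplicativeRight (φ.comp (MonoidHom.toAdditive f))).comp
      (MonoidHom.ofInjective h.1).symm.toMonoidHom
      = (AddMonoidHom.toMultiplicativeRight φ).comp f.range.subtype := by
    ext x
    obtain ⟨y, hy⟩ := x.2
    have hx : x = MonoidHom.ofInjective h.1 y := Subtype.ext hy.symm
    rw [hx]
    simp [AddMonoidHom.coe_toMultiplicativeRight, MonoidHom.ofInjective_apply]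
  refine DFunLike.ext _ _ fun g => ?_
  rw [hcomp]
  rw [MonoidHom.coe_toAdditiveLeft, Function.comp_apply, Function.comp_apply,
    transfer_comp_subtype]
  simp [AddMonoidHom.coe_toMultiplicativeRight]

end Fermat.Agent.S41.H105
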