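import Fermat.Agent.S41.Spec.HK
import Fermat.Agent.S41.H105.TransferAlongComp
import Fermat.Agent.S20.Comb.RelIndex

/-!
# Row S41, block HK, leaf TR: `t₁ r₁ = q + 1 = t₂ r₂` (helper105)

`transferRestrict : Spec.TransferRestrictStatement`.
-/

set_option autoImplicit false

namespace Fermat.Agent.S41.H105

open CongruenceSubgroup Matrix.SpecialLinearGroup
open Fermat.Agent.S41.Spec
open scoped MatrixGroups

theorem incl_injective (N q : ℕ) : Function.Injective (incl N q) :=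
  Subgroup.inclusion_injective _

theorem range_incl (N q : ℕ) :
    (incl N q).range = (Gamma0 (N * q)).subgroupOf (Gamma0 N) := by
  ext h
  rw [MonoidHom.mem_range, Subgroup.mem_subgroupOf]
  constructor
  · rintro ⟨γ, rfl⟩
    exact γ.2
  · intro hh
    exact ⟨⟨h, hh⟩, rfl⟩

theorem index_range_incl {N q : ℕ} (hN : N ≠ 0) (hq : q.Prime) (hqN : ¬ q ∣ N) :
    (incl N q).range.index = q + 1 := by
  rw [range_incl, Nat.mul_comm N q]
  exact Fermat.Agent.S20.Comb.relIndex_Gamma0_of_not_dvd q N hN hq hqN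

theorem mem_range_incl_iff {N q : ℕ} (hq : q.Prime) (hqN : ¬ q ∣ N) (h : Gamma0 N) :
    h ∈ (incl N q).range ↔ (q : ℤ) ∣ (h : SL(2, ℤ)) 1 0 := by
  rw [range_incl, Subgroup.mem_subgroupOf, Fermat.Agent.S20.Comb.mem_Gamma0_iff_dvd]
  have hN : (N : ℤ) ∣ (h : SL(2, ℤ)) 1 0 :=
    (Fermat.Agent.S20.Comb.mem_Gamma0_iff_dvd N _).mp h.2
  have hcop : IsCoprime (N : ℤ) (q : ℤ) := by
    rw [Int.isCoprime_iff_gcd_eq_one, Int.gcd_natCast_natCast]
    exact ((Nat.Prime.coprime_iff_not_dvd hq).mpr hqN).symm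
  push_cast
  constructor
  · intro hh
    exact dvd_trans (dvd_mul_left _ _) hh
  · intro hh
    exact hcop.mul_dvd hN hh

theorem conjDelta_coe_apply (N q : ℕ) (γ : Gamma0 (N * q)) :
    (((conjDelta N q γ : Gamma0 N) : SL(2, ℤ)) : Matrix (Fin 2) (Fin 2) ℤ)
      = conjDeltaMatrix q (γ : SL(2, ℤ)) := rfl

theorem conjDelta_injective (N : ℕ) {q : ℕ} (hq : q ≠ 0) :
    Function.Injective (conjDelta N q) := by
  intro γ γ' h
  have hq' : (q : ℤ) ≠ 0 := by exact_mod_cast hq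
  have hm : conjDeltaMatrix q (γ : SL(2, ℤ)) = conjDeltaMatrix q (γ' : SL(2, ℤ)) := by
    rw [← conjDelta_coe_apply, ← conjDelta_coe_apply, h]
  obtain ⟨k, hk⟩ := (dvd_of_mem_gamma0_mul γ).1
  obtain ⟨k', hk'⟩ := (dvd_of_mem_gamma0_mul γ').1
  have h00 := congrFun (congrFun hm 0) 0
  have h01 := congrFun (congrFun hm 0) 1
  have h10 := congrFun (congrFun hm 1) 0
  have h11 := congrFun (congrFun hm 1) 1
  simp only [conjDeltaMatrix, Matrix.of_apply, Matrix.cons_val_zero, Matrix.cons_val_one,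
    Matrix.cons_val', Matrix.cons_val_fin_one] at h00 h01 h10 h11
  rw [hk, hk', Int.mul_ediv_cancel_left _ hq', Int.mul_ediv_cancel_left _ hq'] at h10
  have h01' := mul_left_cancel₀ hq' h01
  apply Subtype.ext
  apply Subtype.ext
  ext i j
  fin_cases i <;> fin_cases j
  · exact h00
  · exact h01'
  · show (γ : SL(2, ℤ)) 1 0 = (γ' : SL(2, ℤ)) 1 0
    rw [hk, hk', h10]
  · exact h11

theorem mem_range_conjDelta_iff (N : ℕ) {q : ℕ} (hq : q ≠ 0) (h : Gamma0 N) :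
    h ∈ (conjDelta N q).range ↔ (q : ℤ) ∣ (h : SL(2, ℤ)) 0 1 := by
  have hq' : (q : ℤ) ≠ 0 := by exact_mod_cast hq
  rw [MonoidHom.mem_range]
  constructor
  · rintro ⟨γ, rfl⟩
    show (q : ℤ) ∣ conjDeltaMatrix q (γ : SL(2, ℤ)) 0 1
    simp [conjDeltaMatrix]
  · rintro ⟨b, hb⟩
    obtain ⟨c, hc⟩ := (Fermat.Agent.S20.Comb.mem_Gamma0_iff_dvd N _).mp h.2
    have hdet := (h : SL(2, ℤ)).det_coe
    rw [Matrix.det_fin_two] at hdet
    let M : Matrix (Fin 2) (Fin 2) ℤ :=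
      !![(h : SL(2, ℤ)) 0 0, b; q * (h : SL(2, ℤ)) 1 0, (h : SL(2, ℤ)) 1 1]
    have hMdet : M.det = 1 := by
      rw [Matrix.det_fin_two_of]
      rw [hb] at hdet
      linear_combination hdet
    let g : SL(2, ℤ) := ⟨M, hMdet⟩
    have hg : g ∈ Gamma0 (N * q) := by
      rw [Fermat.Agent.S20.Comb.mem_Gamma0_iff_dvd]
      show ((N * q : ℕ) : ℤ) ∣ q * (h : SL(2, ℤ)) 1 0
      rw [hc]
      push_cast
      exact ⟨c, by ring⟩
    refine ⟨⟨g, hg⟩, ?_⟩
    apply Subtype.ext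
    apply Subtype.ext
    rw [conjDelta_coe_apply]
    ext i j
    fin_cases i <;> fin_cases j
    · rfl
    · show (q : ℤ) * b = (h : SL(2, ℤ)) 0 1
      rw [hb]
    · show (q : ℤ) * (h : SL(2, ℤ)) 1 0 / q = (h : SL(2, ℤ)) 1 0
      exact Int.mul_ediv_cancel_left _ hq'
    · rfl

/-- `range conjDelta` is the conjugate of `range incl` by an element `g₀ ∈ Γ₀(N)` with first
column `(q, N)`. -/
theorem range_conjDelta_eq_map {N q : ℕ} (hq : q.Prime) (hqN : ¬ q ∣ N) :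
    ∃ g₀ : Gamma0 N, (conjDelta N q).range
      = (incl N q).range.map (MulAut.conj g₀).toMonoidHom := by
  obtain ⟨g₀, hg00, hg10⟩ := Fermat.Agent.S20.Comb.exists_special q N hq hqN
  refine ⟨g₀, ?_⟩
  ext h
  rw [mem_range_conjDelta_iff N hq.ne_zero, Subgroup.mem_map_equiv, mem_range_incl_iff hq hqN]
  have hcop : IsCoprime (q : ℤ) (N : ℤ) := by
    rw [Int.isCoprime_iff_gcd_eq_one, Int.gcd_natCast_natCast]
    exact (Nat.Prime.coprime_iff_not_dvd hq).mpr hqN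
  have hentry : (((MulAut.conj g₀).symm h : Gamma0 N) : SL(2, ℤ)) 1 0
      = (q : ℤ) * ((h : SL(2, ℤ)) 1 0 * q + (h : SL(2, ℤ)) 1 1 * N - N * (h : SL(2, ℤ)) 0 0)
        - (N : ℤ) * N * (h : SL(2, ℤ)) 0 1 := by
    have e : (((MulAut.conj g₀).symm h : Gamma0 N) : SL(2, ℤ))
        = (g₀ : SL(2, ℤ))⁻¹ * ((h : SL(2, ℤ)) * (g₀ : SL(2, ℤ))) := by
      simp [MulAut.conj_symm_apply, mul_assoc]
    rw [e, Fermat.Agent.S20.Comb.inv_mul_apply_one_zero]
    have e00 : ((h : SL(2, ℤ)) * (g₀ : SL(2, ℤ))) 0 0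
        = (h : SL(2, ℤ)) 0 0 * q + (h : SL(2, ℤ)) 0 1 * N := by
      simp [Matrix.mul_apply, Fin.sum_univ_two, hg00, hg10]
    have e10 : ((h : SL(2, ℤ)) * (g₀ : SL(2, ℤ))) 1 0
        = (h : SL(2, ℤ)) 1 0 * q + (h : SL(2, ℤ)) 1 1 * N := by
      simp [Matrix.mul_apply, Fin.sum_univ_two, hg00, hg10]
    rw [e00, e10, hg00, hg10]
    ring
  rw [hentry]
  constructor
  · intro hb
    exact dvd_sub (dvd_mul_right _ _) (dvd_mul_of_dvd_right hb _)
  · intro hh
    have h1 : (q : ℤ) ∣ (N : ℤ) * N * (h : SL(2, ℤ)) 0 1 := by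
      have := dvd_sub (dvd_mul_right (q : ℤ)
        ((h : SL(2, ℤ)) 1 0 * q + (h : SL(2, ℤ)) 1 1 * N - N * (h : SL(2, ℤ)) 0 0)) hh
      simpa using this
    exact (hcop.mul_right hcop).dvd_of_dvd_mul_left h1

theorem index_range_conjDelta {N q : ℕ} (hN : N ≠ 0) (hq : q.Prime) (hqN : ¬ q ∣ N) :
    (conjDelta N q).range.index = q + 1 := by
  obtain ⟨g₀, hg₀⟩ := range_conjDelta_eq_map hq hqN
  rw [hg₀]
  exact (Subgroup.index_map_equiv _ (MulAut.conj g₀)).trans (index_range_incl hN hq hqN)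

universe u

/-- **Leaf TR of block HK**: `t₁ r₁ = q + 1 = t₂ r₂`. -/
theorem transferRestrict : TransferRestrictStatement.{u} := by
  intro N q hN hq hqN A _ φ
  have hi₁ : (incl N q).range.index = q + 1 := index_range_incl hN hq hqN
  have hi₂ : (conjDelta N q).range.index = q + 1 := index_range_conjDelta hN hq hqN
  have hf₁ : (incl N q).range.FiniteIndex := ⟨by rw [hi₁]; exact Nat.succ_ne_zero q⟩
  have hf₂ : (conjDelta N q).range.FiniteIndex := ⟨by rw [hi₂]; exact Nat.succ_ne_zero q⟩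
  constructor
  · show transferAlong (incl N q) (φ.comp (MonoidHom.toAdditive (incl N q))) = (q + 1) • φ
    rw [transferAlong_comp (incl N q) (incl_injective N q) hf₁ φ, hi₁]
  · show transferAlong (conjDelta N q) (φ.comp (MonoidHom.toAdditive (conjDelta N q)))
      = (q + 1) • φ
    rw [transferAlong_comp (conjDelta N q) (conjDelta_injective N hq.ne_zero) hf₂ φ, hi₂]

end Fermat.Agent.S41.H105
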